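import Mathlib
import Fermat.Agent.LT.A2.H753.RegSpec

/-!
# Row LT, tower A2, leaf A2.03.1.3.0 `H753.DictC` (helper79, registry 1294)

OFF-MAIN.  `dictC_79 : H753.DictC`, VERBATIM against `LT/A2/H753/RegSpec.lean` (helper753).

A global admissible pair `(g, m)` is locally admissible at every place: the components
`x ↦ x.2 v`, `x ↦ x.1 u` are ring homomorphisms `𝔸_K → K_v`, `𝔸_K → K_u`, so they commute with the
determinant and with the entries of `torMat`; the determinant of an element of `GL₂(𝔸_K)` is a
unit, so its components are not zero.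
-/

set_option autoImplicit false

open IsDedekindDomain NumberField AutomorphicForm MeasureTheory
open scoped MatrixGroups Topology

noncomputable section

namespace Fermat.Agent.LT.A2.H79

open Fermat.Agent.LT.H130 Fermat.Agent.LT.H556 Fermat.Agent.LT.A2 Fermat.Agent.LT.A2.WX467
open Fermat.Agent.LT.A2.H753

variable {K : Type} [Field K] [NumberField K]

/-- The component at the finite place `v`, as a ring homomorphism. -/
def finHom79 (v : HeightOneSpectrum (𝓞 K)) : A0.Adl K →+* v.adicCompletion K where
  toFun x := x.2 v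
  map_one' := rfl
  map_mul' _ _ := rfl
  map_zero' := rfl
  map_add' _ _ := rfl

/-- The component at the infinite place `u`, as a ring homomorphism. -/
def infHom79 (u : InfinitePlace K) : A0.Adl K →+* u.Completion where
  toFun x := x.1 u
  map_one' := rfl
  map_mul' _ _ := rfl
  map_zero' := rfl
  map_add' _ _ := rfl

theorem finHom79_apply (v : HeightOneSpectrum (𝓞 K)) (x : A0.Adl K) : finHom79 v x = x.2 v := rfl

theorem infHom79_apply (u : InfinitePlace K) (x : A0.Adl K) : infHom79 u x = x.1 u := rfl

theorem finHom79_alg (v : HeightOneSpectrum (𝓞 K)) (t : K) :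
    finHom79 v (algebraMap K (A0.Adl K) t) = algebraMap K (v.adicCompletion K) t := rfl

theorem infHom79_alg (u : InfinitePlace K) (t : K) :
    infHom79 u (algebraMap K (A0.Adl K) t) = algebraMap K u.Completion t := rfl

theorem finComp_eq79 (v : HeightOneSpectrum (𝓞 K)) (g : A0.G K) :
    A0.finComp v g = (finHom79 v).mapMatrix (g : Matrix (Fin 2) (Fin 2) (A0.Adl K)) := rfl

theorem infMat_eq79 (u : InfinitePlace K) (g : A0.G K) :
    infMat u g = (infHom79 u).mapMatrix (g : Matrix (Fin 2) (Fin 2) (A0.Adl K)) := rfl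

/-- The abstract statement: a ring homomorphism to a field maps admissible pairs to locally
admissible pairs. -/
theorem admL_of_hom79 {k : Type} [Field k] (f : A0.Adl K →+* k) (t n : K) (g m : A0.G K)
    (h : Adm t n g m) :
    AdmL (f (algebraMap K (A0.Adl K) t)) (f (algebraMap K (A0.Adl K) n))
      (f.mapMatrix (g : Matrix (Fin 2) (Fin 2) (A0.Adl K)))
      (f.mapMatrix (m : Matrix (Fin 2) (Fin 2) (A0.Adl K))) := by
  obtain ⟨⟨a, b, hm⟩, hdet⟩ := h
  have hdet' : (g : Matrix (Fin 2) (Fin 2) (A0.Adl K)).det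
      = (m : Matrix (Fin 2) (Fin 2) (A0.Adl K)).det := by
    have := congrArg (fun x : (A0.Adl K)ˣ => (x : A0.Adl K)) hdet
    simpa using this
  refine ⟨⟨f a, f b, ?_⟩, ?_, ?_⟩
  · rw [hm]
    ext i j
    fin_cases i <;> fin_cases j <;> simp [torMat]
  · rw [← RingHom.map_det, ← RingHom.map_det, hdet']
  · rw [← RingHom.map_det]
    have hu : IsUnit ((m : Matrix (Fin 2) (Fin 2) (A0.Adl K)).det) :=
      ⟨Matrix.GeneralLinearGroup.det m, rfl⟩
    exact (hu.map f).ne_zero

/-- **A2.03.1.3.0 `DictC`**, VERBATIM against `RegSpec.DictC`. -/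
theorem dictC_79 : H753.DictC := by
  intro K _ _ L g m h
  refine ⟨fun v => ?_, fun u => ?_⟩
  · exact admL_of_hom79 (finHom79 v) L.t L.n g m h
  · exact admL_of_hom79 (infHom79 u) L.t L.n g m h

end Fermat.Agent.LT.A2.H79

end
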