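import Mathlib
import Fermat.Agent.LT.A2.H54.LocFinSpec
import Fermat.Agent.LT.A2.H83.WeylOp

/-!
# Row LT, tower A2, station A2.03.1.1.06: OPERATOR CALCULUS on Schwartz--Bruhat functions (helper79)

OFF-MAIN.  On `LT/A2/H54/LocFinSpec.lean` (helper54, sha256 `8ccd9c5c…`) and the kit
`LT/A2/H83/{SBKit,WeylOp}.lean` of helper83 (byte-identical copies).  Abstract: `k` is an
ultrametric normed field.

Operators on functions `k² → ℂ`: `F = ftL` (Fourier transform), `M_a` = multiplication by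
`ψ(a Q)` (`Mo79`), `D_e` = dilation `Φ(e ·)` (`Do79`), `S_s` = multiplication by the scalar `s`
(`So79`), `A_h = F M_h F` (`Ao79`), `U_h = M_e D_e F M_e` with `e = -1/h` (`Uo79`).

From a Fourier certificate (`LF54.FourierCert`):
* `ft_Do79`:  `F D_e = ‖e‖⁻² D_{1/e} F`;
* `ft_ft79`:  `F F = c D_{-1}`;
* `Ao_eq79`:  `A_h = G(h) U_h`                          (the Gauss identity);
* `Ao_Ao_neg79`:  `A_h A_{-h} = c²`;
* `Uo_Uo_neg79`:  `U_h U_{-h} = c ‖h‖²`;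
* `Ao_add79`:  `A_a D_{-1} A_b = c A_{a+b}`;
* `Uo_add79`:  `U_a D_{-1} U_b = G(f) U_{a+b}`, `f = -(a+b)/(ab)`.
-/

set_option autoImplicit false
set_option linter.unusedSectionVars false

open IsDedekindDomain NumberField MeasureTheory
open scoped Topology

noncomputable section

namespace Fermat.Agent.LT.A2.H79

open Fermat.Agent.LT.A2 Fermat.Agent.LT.A2.WX467 Fermat.Agent.LT.A2.LF54 Fermat.Agent.LT.A2.H83

/-! ## 1. The operators -/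

section Ops

variable {k : Type} [NormedField k]

/-- Multiplication by `ψ(a Q)`. -/
def Mo79 (t n : k) (ψ : k → ℂ) (a : k) (Φ : k × k → ℂ) : k × k → ℂ :=
  fun y => ψ (a * qfL t n y) * Φ y

/-- Dilation. -/
def Do79 (e : k) (Φ : k × k → ℂ) : k × k → ℂ := fun y => Φ (e • y)

/-- Multiplication by a scalar. -/
def So79 (s : ℂ) (Φ : k × k → ℂ) : k × k → ℂ := fun y => s * Φ y

theorem Mo_apply79 (t n : k) (ψ : k → ℂ) (a : k) (Φ : k × k → ℂ) (y : k × k) :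
    Mo79 t n ψ a Φ y = ψ (a * qfL t n y) * Φ y := rfl

theorem Do_apply79 (e : k) (Φ : k × k → ℂ) (y : k × k) : Do79 e Φ y = Φ (e • y) := rfl

theorem So_apply79 (s : ℂ) (Φ : k × k → ℂ) (y : k × k) : So79 s Φ y = s * Φ y := rfl

theorem Mo_Mo79 (t n : k) {ψ : k → ℂ} (hadd : ∀ x y : k, ψ (x + y) = ψ x * ψ y) (a b : k)
    (Φ : k × k → ℂ) : Mo79 t n ψ a (Mo79 t n ψ b Φ) = Mo79 t n ψ (a + b) Φ := by
  funext y
  simp only [Mo_apply79]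
  rw [add_mul, hadd, mul_assoc]

theorem Mo_zero79 (t n : k) {ψ : k → ℂ} (h0 : ψ 0 = 1) (Φ : k × k → ℂ) :
    Mo79 t n ψ 0 Φ = Φ := by
  funext y
  simp only [Mo_apply79]
  rw [zero_mul, h0, one_mul]

theorem Mo_congr79 (t n : k) (ψ : k → ℂ) {a b : k} (h : a = b) (Φ : k × k → ℂ) :
    Mo79 t n ψ a Φ = Mo79 t n ψ b Φ := by rw [h]

theorem Do_congr79 {a b : k} (h : a = b) (Φ : k × k → ℂ) : Do79 a Φ = Do79 b Φ := by rw [h]

theorem So_congr79 {a b : ℂ} (h : a = b) (Φ : k × k → ℂ) : So79 a Φ = So79 b Φ := by rw [h]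

theorem Do_Mo79 (t n : k) (ψ : k → ℂ) (e h : k) (Φ : k × k → ℂ) :
    Do79 e (Mo79 t n ψ h Φ) = Mo79 t n ψ (h * e ^ 2) (Do79 e Φ) := by
  funext y
  simp only [Mo_apply79, Do_apply79]
  rw [qfL_smul83, mul_assoc]

theorem Do_Do79 (e e' : k) (Φ : k × k → ℂ) : Do79 e (Do79 e' Φ) = Do79 (e' * e) Φ := by
  funext y
  simp only [Do_apply79]
  rw [smul_smul]

theorem Do_one79 (Φ : k × k → ℂ) : Do79 (1 : k) Φ = Φ := by
  funext y
  simp only [Do_apply79]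
  rw [one_smul]

theorem So_So79 (s s' : ℂ) (Φ : k × k → ℂ) : So79 s (So79 s' Φ) = So79 (s * s') Φ := by
  funext y
  simp only [So_apply79]
  rw [mul_assoc]

theorem So_one79 (Φ : k × k → ℂ) : So79 (1 : ℂ) Φ = Φ := by
  funext y
  simp only [So_apply79]
  rw [one_mul]

theorem Mo_So79 (t n : k) (ψ : k → ℂ) (a : k) (s : ℂ) (Φ : k × k → ℂ) :
    Mo79 t n ψ a (So79 s Φ) = So79 s (Mo79 t n ψ a Φ) := by
  funext y
  simp only [Mo_apply79, So_apply79]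
  ring

theorem Do_So79 (e : k) (s : ℂ) (Φ : k × k → ℂ) : Do79 e (So79 s Φ) = So79 s (Do79 e Φ) := rfl

theorem ft_So79 (t n : k) (ψ : k → ℂ) (μ : @Measure k (borel k)) (s : ℂ) (Φ : k × k → ℂ) :
    ftL t n ψ μ (So79 s Φ) = So79 s (ftL t n ψ μ Φ) := by
  funext ξ
  simp only [So_apply79]
  unfold ftL
  rw [← intL_const_mul83]
  apply intL_congr83
  intro y
  simp only [So_apply79]
  ring

/-! ### Stability of the Schwartz--Bruhat functions -/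

theorem isSB_So79 (s : ℂ) {Φ : k × k → ℂ} (hΦ : IsSB Φ) : IsSB (So79 s Φ) :=
  isSB_mul_left83 hΦ (g := fun _ => s) (IsLocallyConstant.const s)

theorem isSB_Do79 {e : k} (he : e ≠ 0) {Φ : k × k → ℂ} (hΦ : IsSB Φ) : IsSB (Do79 e Φ) :=
  isSB_comp_smul83 hΦ he

theorem isSB_Mo79 [IsUltrametricDist k] (t n : k) {ψ : k → ℂ} (hψ : IsCharL ψ) (a : k)
    {Φ : k × k → ℂ} (hΦ : IsSB Φ) : IsSB (Mo79 t n ψ a Φ) :=
  isSB_mul_left83 hΦ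
    (locConst_psi_comp83 hψ (P := fun y => a * qfL t n y)
      (continuous_const.mul (continuous_qfL83 t n)))

end Ops

/-! ## 2. The three rules of a Fourier certificate -/

section Rules

variable {k : Type} [NormedField k] [IsUltrametricDist k]
variable {t n : k} {ψ : k → ℂ} {μ : @Measure k (borel k)} {c : ℝ} {G : k → ℂ}

/-- `F D_e = ‖e‖⁻² D_{1/e} F`. -/
theorem ft_Do79 (hψ : IsCharL ψ) (hcov : CovP μ) {e : k} (he : e ≠ 0) {Φ : k × k → ℂ}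
    (hΦ : IsSB Φ) :
    ftL t n ψ μ (Do79 e Φ)
      = So79 (((‖e‖ ^ 2)⁻¹ : ℝ) : ℂ) (Do79 e⁻¹ (ftL t n ψ μ Φ)) := by
  funext ξ
  have hf : IsSB (fun y => Φ y * ψ (bfL t n (e⁻¹ • ξ) y)) :=
    isSB_mul_right83 hΦ (locConst_psi_comp83 hψ (continuous_bfL_right83 t n _))
  have h := intL_smul83 hcov he hf
  change intL μ (fun y => Φ (e • y) * ψ (bfL t n ξ y))
    = _ * intL μ (fun y => Φ y * ψ (bfL t n (e⁻¹ • ξ) y))
  rw [← h]
  apply intL_congr83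
  intro y
  rw [bfL_smul_left83, bfL_smul_right83, ← mul_assoc, inv_mul_cancel₀ he, one_mul]

/-- `D_{1/e} F = ‖e‖² F D_e`. -/
theorem Do_ft79 (hψ : IsCharL ψ) (hcov : CovP μ) {e : k} (he : e ≠ 0) {Φ : k × k → ℂ}
    (hΦ : IsSB Φ) :
    Do79 e⁻¹ (ftL t n ψ μ Φ) = So79 (((‖e‖ ^ 2 : ℝ)) : ℂ) (ftL t n ψ μ (Do79 e Φ)) := by
  rw [ft_Do79 hψ hcov he hΦ, So_So79]
  have : (((‖e‖ ^ 2 : ℝ)) : ℂ) * (((‖e‖ ^ 2)⁻¹ : ℝ) : ℂ) = 1 := by
    rw [← Complex.ofReal_mul, mul_inv_cancel₀ (pow_ne_zero 2 (norm_ne_zero_iff.mpr he)),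
      Complex.ofReal_one]
  rw [this, So_one79]

/-- `F D_{-1} = D_{-1} F`. -/
theorem ft_neg79 (hψ : IsCharL ψ) (hcov : CovP μ) {Φ : k × k → ℂ} (hΦ : IsSB Φ) :
    ftL t n ψ μ (Do79 (-1) Φ) = Do79 (-1) (ftL t n ψ μ Φ) := by
  rw [ft_Do79 hψ hcov (neg_ne_zero.mpr one_ne_zero) hΦ]
  have h1 : (((‖(-1 : k)‖ ^ 2)⁻¹ : ℝ) : ℂ) = 1 := by
    rw [norm_neg, norm_one]; norm_num
  have h2 : ((-1 : k))⁻¹ = -1 := by rw [inv_neg, inv_one]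
  rw [h1, So_one79, h2]

/-- `F F = c D_{-1}`. -/
theorem ft_ft79 (hF : FourierCert t n ψ μ c G) {Φ : k × k → ℂ} (hΦ : IsSB Φ) :
    ftL t n ψ μ (ftL t n ψ μ Φ) = So79 (c : ℂ) (Do79 (-1) Φ) := by
  funext ξ
  rw [hF.inv Φ hΦ ξ, So_apply79, Do_apply79, neg_one_smul]

/-- `A_h = F M_h F`. -/
def Ao79 (t n : k) (ψ : k → ℂ) (μ : @Measure k (borel k)) (h : k) (Φ : k × k → ℂ) :
    k × k → ℂ :=
  ftL t n ψ μ (Mo79 t n ψ h (ftL t n ψ μ Φ))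

/-- `U_h = M_e D_e F M_e`, `e = -1/h`. -/
def Uo79 (t n : k) (ψ : k → ℂ) (μ : @Measure k (borel k)) (h : k) (Φ : k × k → ℂ) :
    k × k → ℂ :=
  Mo79 t n ψ (-h⁻¹) (Do79 (-h⁻¹) (ftL t n ψ μ (Mo79 t n ψ (-h⁻¹) Φ)))

/-- **The Gauss identity**, operator form: `A_h = G(h) U_h`. -/
theorem Ao_eq79 (hψ : IsCharL ψ) (hF : FourierCert t n ψ μ c G) {h : k} (hh : h ≠ 0)
    {Φ : k × k → ℂ} (hΦ : IsSB Φ) :
    Ao79 t n ψ μ h Φ = So79 (G h) (Uo79 t n ψ μ h Φ) := by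
  funext ξ
  have hg := hF.gauss h hh Φ hΦ ξ
  change ftL t n ψ μ (fun y => ψ (h * qfL t n y) * ftL t n ψ μ Φ y) ξ = _
  rw [hg, So_apply79]
  congr 1
  change _ = ψ (-h⁻¹ * qfL t n ξ)
    * intL μ (fun z => (ψ (-h⁻¹ * qfL t n z) * Φ z) * ψ (bfL t n ((-h⁻¹) • ξ) z))
  rw [← intL_const_mul83]
  apply intL_congr83
  intro z
  have e : -(qfL t n (z + ξ)) / h
      = -h⁻¹ * qfL t n ξ + (-h⁻¹ * qfL t n z + bfL t n ((-h⁻¹) • ξ) z) := by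
    rw [bfL_smul_left83, qfL_add83]
    field_simp
    ring
  rw [e, hψ.2.1, hψ.2.1]
  ring

theorem isSB_ft79 (hF : FourierCert t n ψ μ c G) {Φ : k × k → ℂ} (hΦ : IsSB Φ) :
    IsSB (ftL t n ψ μ Φ) := hF.ft_sb Φ hΦ

theorem isSB_Ao79 (hψ : IsCharL ψ) (hF : FourierCert t n ψ μ c G) (h : k) {Φ : k × k → ℂ}
    (hΦ : IsSB Φ) : IsSB (Ao79 t n ψ μ h Φ) :=
  hF.ft_sb _ (isSB_Mo79 t n hψ h (hF.ft_sb Φ hΦ))

theorem isSB_Uo79 (hψ : IsCharL ψ) (hF : FourierCert t n ψ μ c G) {h : k} (hh : h ≠ 0)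
    {Φ : k × k → ℂ} (hΦ : IsSB Φ) : IsSB (Uo79 t n ψ μ h Φ) :=
  isSB_Mo79 t n hψ _ (isSB_Do79 (neg_ne_zero.mpr (inv_ne_zero hh))
    (hF.ft_sb _ (isSB_Mo79 t n hψ _ hΦ)))

theorem Ao_So79 (h : k) (s : ℂ) (Φ : k × k → ℂ) :
    Ao79 t n ψ μ h (So79 s Φ) = So79 s (Ao79 t n ψ μ h Φ) := by
  unfold Ao79
  rw [ft_So79, Mo_So79, ft_So79]

theorem Uo_So79 (h : k) (s : ℂ) (Φ : k × k → ℂ) :
    Uo79 t n ψ μ h (So79 s Φ) = So79 s (Uo79 t n ψ μ h Φ) := by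
  unfold Uo79
  rw [Mo_So79, ft_So79, Do_So79, Mo_So79]

end Rules

end Fermat.Agent.LT.A2.H79

end
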