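import Mathlib
import Fermat.Agent.LT.A2.H79.GaussOps

/-!
# Row LT, tower A2, station A2.03.1.1.06: RELATIONS between the Gauss constants (helper79)

OFF-MAIN.  On `GaussOps.lean`.  Abstract: `k` an ultrametric normed field with a Fourier
certificate `FourierCert t n ψ μ c G` and ONE Schwartz--Bruhat function which is not zero.

* `gaussProd79`:  `‖h‖² G(h) G(-h) = c`                                 (`LF54.GaussProdP`);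
* `gaussAdd79`:   `c G(a + b) = G(a) G(b) G(-(a + b)/(a b))`             (Weil's relation).
-/

set_option autoImplicit false
set_option linter.unusedSectionVars false

open IsDedekindDomain NumberField MeasureTheory
open scoped Topology

noncomputable section

namespace Fermat.Agent.LT.A2.H79

open Fermat.Agent.LT.A2 Fermat.Agent.LT.A2.WX467 Fermat.Agent.LT.A2.LF54 Fermat.Agent.LT.A2.H83

section Rel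

variable {k : Type} [NormedField k] [IsUltrametricDist k]
variable {t n : k} {ψ : k → ℂ} {μ : @Measure k (borel k)} {c : ℝ} {G : k → ℂ}

theorem psi_zero79 (hψ : IsCharL ψ) : ψ 0 = 1 := psi_zero83 ψ hψ.2.1 hψ.2.2.1

/-- `A_h A_{-h} = c²`. -/
theorem Ao_Ao_neg79 (hψ : IsCharL ψ) (hF : FourierCert t n ψ μ c G) (h : k)
    {Φ : k × k → ℂ} (hΦ : IsSB Φ) :
    Ao79 t n ψ μ h (Ao79 t n ψ μ (-h) Φ) = So79 ((c : ℂ) * (c : ℂ)) Φ := by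
  have hFΦ : IsSB (ftL t n ψ μ Φ) := hF.ft_sb Φ hΦ
  have hΨ : IsSB (Mo79 t n ψ (-h) (ftL t n ψ μ Φ)) := isSB_Mo79 t n hψ _ hFΦ
  have e0 : h + -h * (-1 : k) ^ 2 = 0 := by ring
  have e1 : (-1 : k) * -1 = 1 := by ring
  unfold Ao79
  rw [ft_ft79 hF hΨ, Mo_So79, Do_Mo79, Mo_Mo79 t n hψ.2.1, Mo_congr79 t n ψ e0,
    Mo_zero79 t n (psi_zero79 hψ), ft_So79, ft_neg79 hψ hF.cov hFΦ, ft_ft79 hF hΦ, Do_So79,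
    So_So79, Do_Do79, Do_congr79 e1, Do_one79]

/-- `U_h U_{-h} = c ‖h‖²`. -/
theorem Uo_Uo_neg79 (hψ : IsCharL ψ) (hF : FourierCert t n ψ μ c G) {h : k} (hh : h ≠ 0)
    {Φ : k × k → ℂ} (hΦ : IsSB Φ) :
    Uo79 t n ψ μ h (Uo79 t n ψ μ (-h) Φ) = So79 ((c : ℂ) * ((‖h‖ ^ 2 : ℝ) : ℂ)) Φ := by
  have hinv : h⁻¹ ≠ 0 := inv_ne_zero hh
  have e' : -(-h)⁻¹ = h⁻¹ := by rw [inv_neg, neg_neg]
  have hΞ : IsSB (Mo79 t n ψ h⁻¹ Φ) := isSB_Mo79 t n hψ _ hΦ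
  have hW : IsSB (ftL t n ψ μ (Mo79 t n ψ h⁻¹ Φ)) := hF.ft_sb _ hΞ
  have e0 : -h⁻¹ + h⁻¹ = 0 := by ring
  have e1 : -1 * ((h⁻¹)⁻¹ * -h⁻¹) = 1 := by
    rw [inv_inv]; field_simp
  have es : (((‖h⁻¹‖ ^ 2)⁻¹ : ℝ) : ℂ) * (c : ℂ) = (c : ℂ) * ((‖h‖ ^ 2 : ℝ) : ℂ) := by
    rw [norm_inv, inv_pow, inv_inv, mul_comm]
  unfold Uo79
  rw [e', Mo_Mo79 t n hψ.2.1, Mo_congr79 t n ψ e0, Mo_zero79 t n (psi_zero79 hψ),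
    ft_Do79 hψ hF.cov hinv hW, ft_ft79 hF hΞ, Do_So79, Do_Do79, Do_So79, So_So79, Do_Do79,
    Do_congr79 e1, Do_one79, Mo_So79, Mo_Mo79 t n hψ.2.1, Mo_congr79 t n ψ e0,
    Mo_zero79 t n (psi_zero79 hψ), So_congr79 es]

/-- `A_a D_{-1} A_b = c A_{a+b}`. -/
theorem Ao_add79 (hψ : IsCharL ψ) (hF : FourierCert t n ψ μ c G) (a b : k)
    {Φ : k × k → ℂ} (hΦ : IsSB Φ) :
    Ao79 t n ψ μ a (Do79 (-1) (Ao79 t n ψ μ b Φ)) = So79 (c : ℂ) (Ao79 t n ψ μ (a + b) Φ) := by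
  have hFΦ : IsSB (ftL t n ψ μ Φ) := hF.ft_sb Φ hΦ
  have hΘ : IsSB (Mo79 t n ψ b (ftL t n ψ μ Φ)) := isSB_Mo79 t n hψ _ hFΦ
  have hDΘ : IsSB (Do79 (-1) (Mo79 t n ψ b (ftL t n ψ μ Φ))) :=
    isSB_Do79 (neg_ne_zero.mpr one_ne_zero) hΘ
  have e1 : (-1 : k) * -1 = 1 := by ring
  unfold Ao79
  rw [← ft_neg79 hψ hF.cov hΘ, ft_ft79 hF hDΘ, Do_Do79, Do_congr79 e1, Do_one79, Mo_So79,
    Mo_Mo79 t n hψ.2.1, ft_So79]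

/-- `U_a D_{-1} U_b = G(f) U_{a+b}`, `f = -(a+b)/(ab)`. -/
theorem Uo_add79 (hψ : IsCharL ψ) (hF : FourierCert t n ψ μ c G) {a b : k} (ha : a ≠ 0)
    (hb : b ≠ 0) (hab : a + b ≠ 0) {Φ : k × k → ℂ} (hΦ : IsSB Φ) :
    Uo79 t n ψ μ a (Do79 (-1) (Uo79 t n ψ μ b Φ))
      = So79 (G (-(a + b) / (a * b))) (Uo79 t n ψ μ (a + b) Φ) := by
  have hf : -(a + b) / (a * b) ≠ 0 :=
    div_ne_zero (neg_ne_zero.mpr hab) (mul_ne_zero ha hb)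
  have hΞ : IsSB (Mo79 t n ψ (-b⁻¹) Φ) := isSB_Mo79 t n hψ _ hΦ
  have hDΞ : IsSB (Do79 b (Mo79 t n ψ (-b⁻¹) Φ)) := isSB_Do79 hb hΞ
  have hS : IsSB (Mo79 t n ψ (-(a + b)⁻¹) Φ) := isSB_Mo79 t n hψ _ hΦ
  have e1 : -b⁻¹ * -1 = b⁻¹ := by ring
  have e2 : -a⁻¹ + -b⁻¹ * (-1 : k) ^ 2 = -(a + b) / (a * b) := by
    field_simp; ring
  have e3 : -(-(a + b) / (a * b))⁻¹ + -b⁻¹ * b ^ 2 = -(a + b)⁻¹ * b ^ 2 := by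
    field_simp; ring
  have e4 : -a⁻¹ + -(-(a + b) / (a * b))⁻¹ * (-a⁻¹) ^ 2 = -(a + b)⁻¹ := by
    field_simp; ring
  have e5 : b⁻¹ * -(-(a + b) / (a * b))⁻¹ * -a⁻¹ = -(a + b)⁻¹ := by
    field_simp
  have es : ((‖b‖ ^ 2 : ℝ) : ℂ) * G (-(a + b) / (a * b)) * (((‖b‖ ^ 2)⁻¹ : ℝ) : ℂ)
      = G (-(a + b) / (a * b)) := by
    have hb2 : ((‖b‖ ^ 2 : ℝ) : ℂ) ≠ 0 :=
      Complex.ofReal_ne_zero.mpr (pow_ne_zero 2 (norm_ne_zero_iff.mpr hb))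
    rw [Complex.ofReal_inv]
    field_simp
  -- the inner part `D_{-1} U_b Φ`
  have inner : Do79 (-1) (Uo79 t n ψ μ b Φ)
      = So79 ((‖b‖ ^ 2 : ℝ) : ℂ)
          (Mo79 t n ψ (-b⁻¹ * (-1 : k) ^ 2)
            (ftL t n ψ μ (Do79 b (Mo79 t n ψ (-b⁻¹) Φ)))) := by
    unfold Uo79
    rw [Do_Mo79, Do_Do79, Do_congr79 e1, Do_ft79 hψ hF.cov hb hΞ, Mo_So79]
  -- `U_f (D_b M_{e_b} Φ)`
  have mid : Uo79 t n ψ μ (-(a + b) / (a * b)) (Do79 b (Mo79 t n ψ (-b⁻¹) Φ))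
      = So79 (((‖b‖ ^ 2)⁻¹ : ℝ) : ℂ)
          (Mo79 t n ψ (-(-(a + b) / (a * b))⁻¹)
            (Do79 (b⁻¹ * -(-(a + b) / (a * b))⁻¹)
              (ftL t n ψ μ (Mo79 t n ψ (-(a + b)⁻¹) Φ)))) := by
    unfold Uo79
    rw [Do_Mo79, Mo_Mo79 t n hψ.2.1, Mo_congr79 t n ψ e3, ← Do_Mo79,
      ft_Do79 hψ hF.cov hb hS, Do_So79, Do_Do79, Mo_So79]
  have hA := Ao_eq79 hψ hF hf hDΞ
  unfold Ao79 at hA
  rw [inner]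
  unfold Uo79
  rw [Mo_So79, Mo_Mo79 t n hψ.2.1, Mo_congr79 t n ψ e2, ft_So79, hA, mid, So_So79, So_So79,
    So_congr79 es, Do_So79, Do_Mo79, Do_Do79, Mo_So79, Mo_Mo79 t n hψ.2.1,
    Mo_congr79 t n ψ e4, Do_congr79 e5]

/-! ### Extraction of the scalars -/

/-- There is a Schwartz--Bruhat function `Ψ` with `U_h Ψ (ξ₀) ≠ 0`. -/
theorem exists_Uo_ne_zero79 (hψ : IsCharL ψ) (hF : FourierCert t n ψ μ c G) {h : k}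
    (hh : h ≠ 0) {Φ₀ : k × k → ℂ} (hΦ₀ : IsSB Φ₀) {ξ₀ : k × k} (hξ₀ : Φ₀ ξ₀ ≠ 0) :
    ∃ Ψ : k × k → ℂ, IsSB Ψ ∧ Uo79 t n ψ μ h Ψ ξ₀ ≠ 0 := by
  refine ⟨Ao79 t n ψ μ (-h) Φ₀, isSB_Ao79 hψ hF _ hΦ₀, ?_⟩
  intro h0
  have h1 := congrFun (Ao_Ao_neg79 hψ hF h hΦ₀) ξ₀
  rw [Ao_eq79 hψ hF hh (isSB_Ao79 hψ hF _ hΦ₀), So_apply79, So_apply79, h0, mul_zero] at h1
  have hc : (c : ℂ) ≠ 0 := Complex.ofReal_ne_zero.mpr hF.c_pos.ne'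
  exact mul_ne_zero (mul_ne_zero hc hc) hξ₀ h1.symm

/-- **`‖h‖² G(h) G(-h) = c`.** -/
theorem gaussProd79 (hψ : IsCharL ψ) (hF : FourierCert t n ψ μ c G)
    (hne : ∃ Φ₀ : k × k → ℂ, IsSB Φ₀ ∧ ∃ ξ₀, Φ₀ ξ₀ ≠ 0) {h : k} (hh : h ≠ 0) :
    ((‖h‖ ^ 2 : ℝ) : ℂ) * (G h * G (-h)) = (c : ℂ) := by
  obtain ⟨Φ₀, hΦ₀, ξ₀, hξ₀⟩ := hne
  have hc : (c : ℂ) ≠ 0 := Complex.ofReal_ne_zero.mpr hF.c_pos.ne'
  have h1 := Ao_Ao_neg79 hψ hF h hΦ₀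
  rw [Ao_eq79 hψ hF (neg_ne_zero.mpr hh) hΦ₀, Ao_So79,
    Ao_eq79 hψ hF hh (isSB_Uo79 hψ hF (neg_ne_zero.mpr hh) hΦ₀), Uo_Uo_neg79 hψ hF hh hΦ₀,
    So_So79, So_So79] at h1
  have h2 := congrFun h1 ξ₀
  rw [So_apply79, So_apply79] at h2
  have h3 := mul_right_cancel₀ hξ₀ h2
  have h4 : (c : ℂ) * (((‖h‖ ^ 2 : ℝ) : ℂ) * (G h * G (-h))) = (c : ℂ) * (c : ℂ) := by
    rw [← h3]; ring
  exact mul_left_cancel₀ hc h4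

/-- **Weil's relation** `c G(a + b) = G(a) G(b) G(-(a + b)/(a b))`. -/
theorem gaussAdd79 (hψ : IsCharL ψ) (hF : FourierCert t n ψ μ c G)
    (hne : ∃ Φ₀ : k × k → ℂ, IsSB Φ₀ ∧ ∃ ξ₀, Φ₀ ξ₀ ≠ 0) {a b : k} (ha : a ≠ 0) (hb : b ≠ 0)
    (hab : a + b ≠ 0) :
    (c : ℂ) * G (a + b) = G a * G b * G (-(a + b) / (a * b)) := by
  obtain ⟨Φ₀, hΦ₀, ξ₀, hξ₀⟩ := hne
  obtain ⟨Ψ, hΨ, hU⟩ := exists_Uo_ne_zero79 hψ hF hab hΦ₀ hξ₀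
  have h1 := Ao_add79 hψ hF a b hΨ
  rw [Ao_eq79 hψ hF hb hΨ, Do_So79, Ao_So79,
    Ao_eq79 hψ hF ha (isSB_Do79 (neg_ne_zero.mpr one_ne_zero) (isSB_Uo79 hψ hF hb hΨ)),
    Uo_add79 hψ hF ha hb hab hΨ, Ao_eq79 hψ hF hab hΨ, So_So79, So_So79, So_So79] at h1
  have h2 := congrFun h1 ξ₀
  rw [So_apply79, So_apply79] at h2
  have h3 := mul_right_cancel₀ hU h2
  rw [← h3]; ring

end Rel

end Fermat.Agent.LT.A2.H79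

end
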