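import Mathlib
import Fermat.Agent.LT.A2.H79.GaussRel

/-!
# Row LT, tower A2, station A2.03.1.1.06: the Gauss constants and the SIMILITUDES (helper79)

OFF-MAIN.  On `GaussRel.lean`.  Abstract: `k` an ultrametric normed field with a Fourier
certificate and one Schwartz--Bruhat function which is not zero.

A matrix `m` is a similitude of `Q` with multiplier `ν` (`IsSim79`) when `Q(m ξ) = ν Q(ξ)` and
`det m = ν`.  With `m' = ν⁻¹ m` and `C_m Φ = Φ ∘ m`: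
`F C_m = ‖ν‖⁻¹ C_{m'} F`, `F C_{m'} = ‖ν‖ C_m F`, `C_m M_a = M_{a ν} C_m`, hence
`A_{a ν} C_{m'} = C_{m'} A_a` and `U_{a ν} C_{m'} = ‖ν‖ C_{m'} U_a`, so that

* `gaussSim79`:  `‖ν‖ G(a ν) = G(a)`;
* `gaussNorm79`:  `‖Q(x, y)‖ G(a Q(x, y)) = G(a)`                       (`LF54.GaussNormP`).
-/

set_option autoImplicit false
set_option linter.unusedSectionVars false

open IsDedekindDomain NumberField MeasureTheory
open scoped Topology

noncomputable section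

namespace Fermat.Agent.LT.A2.H79

open Fermat.Agent.LT.A2 Fermat.Agent.LT.A2.WX467 Fermat.Agent.LT.A2.LF54 Fermat.Agent.LT.A2.H83

/-! ## 1. Linear substitutions -/

section Lin

variable {k : Type} [NormedField k]

/-- Composition with the linear map of the matrix `m`. -/
def Co79 (m : Matrix (Fin 2) (Fin 2) k) (Φ : k × k → ℂ) : k × k → ℂ := fun ξ => Φ (actL m ξ)

theorem Co_apply79 (m : Matrix (Fin 2) (Fin 2) k) (Φ : k × k → ℂ) (ξ : k × k) :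
    Co79 m Φ ξ = Φ (actL m ξ) := rfl

theorem actL_add79 (m : Matrix (Fin 2) (Fin 2) k) (ξ y : k × k) :
    actL m (ξ + y) = actL m ξ + actL m y := by
  unfold actL
  ext <;> simp only [Prod.fst_add, Prod.snd_add] <;> ring

theorem actL_smul79 (m : Matrix (Fin 2) (Fin 2) k) (e : k) (ξ : k × k) :
    actL m (e • ξ) = e • actL m ξ := by
  unfold actL
  ext <;> simp only [Prod.smul_fst, Prod.smul_snd, smul_eq_mul] <;> ring

theorem actL_smul_left79 (m : Matrix (Fin 2) (Fin 2) k) (e : k) (ξ : k × k) :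
    actL (e • m) ξ = e • actL m ξ := by
  unfold actL
  ext <;> simp only [Prod.smul_fst, Prod.smul_snd, smul_eq_mul, Matrix.smul_apply] <;> ring

theorem actL_mul79 (a b : Matrix (Fin 2) (Fin 2) k) (ξ : k × k) :
    actL (a * b) ξ = actL a (actL b ξ) := by
  unfold actL
  ext <;> simp only [Matrix.mul_apply, Fin.sum_univ_two] <;> ring

theorem actL_one79 (ξ : k × k) : actL (1 : Matrix (Fin 2) (Fin 2) k) ξ = ξ := by
  unfold actL
  ext <;> simp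

theorem continuous_actL79 (m : Matrix (Fin 2) (Fin 2) k) : Continuous (actL m) := by
  unfold actL
  fun_prop

/-- The homeomorphism of an invertible matrix. -/
def actH79 (m : Matrix (Fin 2) (Fin 2) k) (hdet : m.det ≠ 0) : (k × k) ≃ₜ (k × k) where
  toFun := actL m
  invFun := actL m⁻¹
  left_inv ξ := by
    rw [← actL_mul79, Matrix.nonsing_inv_mul _ (isUnit_iff_ne_zero.mpr hdet), actL_one79]
  right_inv ξ := by
    rw [← actL_mul79, Matrix.mul_nonsing_inv _ (isUnit_iff_ne_zero.mpr hdet), actL_one79]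
  continuous_toFun := continuous_actL79 m
  continuous_invFun := continuous_actL79 _

theorem isSB_Co79 {m : Matrix (Fin 2) (Fin 2) k} (hdet : m.det ≠ 0) {Φ : k × k → ℂ}
    (hΦ : IsSB Φ) : IsSB (Co79 m Φ) :=
  ⟨hΦ.1.comp_continuous (continuous_actL79 m), hΦ.2.comp_homeomorph (actH79 m hdet)⟩

theorem Co_So79 (m : Matrix (Fin 2) (Fin 2) k) (s : ℂ) (Φ : k × k → ℂ) :
    Co79 m (So79 s Φ) = So79 s (Co79 m Φ) := rfl

theorem Do_Co79 (m : Matrix (Fin 2) (Fin 2) k) (e : k) (Φ : k × k → ℂ) :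
    Do79 e (Co79 m Φ) = Co79 m (Do79 e Φ) := by
  funext ξ
  simp only [Do_apply79, Co_apply79]
  rw [actL_smul79]

theorem Co_smul79 (m : Matrix (Fin 2) (Fin 2) k) (e : k) (Φ : k × k → ℂ) :
    Co79 (e • m) Φ = Co79 m (Do79 e Φ) := by
  funext ξ
  simp only [Do_apply79, Co_apply79]
  rw [actL_smul_left79]

/-- `m` is a similitude of `Q` with multiplier `ν`. -/
structure IsSim79 (t n : k) (m : Matrix (Fin 2) (Fin 2) k) (ν : k) : Prop where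
  q : ∀ ξ : k × k, qfL t n (actL m ξ) = ν * qfL t n ξ
  det : m.det = ν

theorem IsSim79.bf {t n : k} {m : Matrix (Fin 2) (Fin 2) k} {ν : k} (h : IsSim79 t n m ν)
    (ξ y : k × k) : bfL t n (actL m ξ) (actL m y) = ν * bfL t n ξ y := by
  unfold bfL
  rw [← actL_add79, h.q, h.q, h.q]
  ring

theorem IsSim79.smul_inv {t n : k} {m : Matrix (Fin 2) (Fin 2) k} {ν : k}
    (h : IsSim79 t n m ν) (hν : ν ≠ 0) : IsSim79 t n (ν⁻¹ • m) ν⁻¹ where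
  q ξ := by
    rw [actL_smul_left79, qfL_smul83, h.q]
    field_simp
  det := by
    rw [Matrix.det_smul, h.det, Fintype.card_fin]
    field_simp

theorem Co_Mo79 {t n : k} {m : Matrix (Fin 2) (Fin 2) k} {ν : k} (h : IsSim79 t n m ν)
    (ψ : k → ℂ) (a : k) (Φ : k × k → ℂ) :
    Co79 m (Mo79 t n ψ a Φ) = Mo79 t n ψ (a * ν) (Co79 m Φ) := by
  funext ξ
  simp only [Co_apply79, Mo_apply79]
  rw [h.q, mul_assoc]

/-- The matrix of the multiplication by `x + y ω` is a similitude with multiplier `Q(x, y)`. -/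
theorem isSim_torMat79 (t n x y : k) : IsSim79 t n (torMat t n x y) (qfL t n (x, y)) where
  q ξ := by
    unfold actL qfL torMat
    simp only [Matrix.of_apply, Matrix.cons_val', Matrix.cons_val_zero, Matrix.cons_val_one,
      Matrix.cons_val_fin_one]
    ring
  det := by
    unfold torMat qfL
    rw [Matrix.det_fin_two_of]
    ring

end Lin

/-! ## 2. The Fourier transform and the similitudes -/

section Sim

variable {k : Type} [NormedField k] [IsUltrametricDist k]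
variable {t n : k} {ψ : k → ℂ} {μ : @Measure k (borel k)} {c : ℝ} {G : k → ℂ}

/-- `F C_m = ‖det m‖⁻¹ C_{m'} F` when `B(m' ξ, m y) = B(ξ, y)`. -/
theorem ft_Co79 (hψ : IsCharL ψ) (hcov : CovP μ) {m m' : Matrix (Fin 2) (Fin 2) k}
    (hdet : m.det ≠ 0) (hB : ∀ ξ y : k × k, bfL t n (actL m' ξ) (actL m y) = bfL t n ξ y)
    {Φ : k × k → ℂ} (hΦ : IsSB Φ) :
    ftL t n ψ μ (Co79 m Φ) = So79 ((‖m.det‖⁻¹ : ℝ) : ℂ) (Co79 m' (ftL t n ψ μ Φ)) := by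
  funext ξ
  have hf : IsSB (fun y => Φ y * ψ (bfL t n (actL m' ξ) y)) :=
    isSB_mul_right83 hΦ (locConst_psi_comp83 hψ (continuous_bfL_right83 t n _))
  have h := hcov m hdet _ hf
  change intL μ (fun y => Φ (actL m y) * ψ (bfL t n ξ y))
    = _ * intL μ (fun y => Φ y * ψ (bfL t n (actL m' ξ) y))
  rw [← h]
  apply intL_congr83
  intro y
  rw [hB]

/-- `A_{a ν} C_{m'} = C_{m'} A_a`, `m' = ν⁻¹ m`. -/
theorem Ao_Co79 (hψ : IsCharL ψ) (hF : FourierCert t n ψ μ c G)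
    {m : Matrix (Fin 2) (Fin 2) k} {ν : k} (hm : IsSim79 t n m ν) (hν : ν ≠ 0) (a : k)
    {Φ : k × k → ℂ} (hΦ : IsSB Φ) :
    Ao79 t n ψ μ (a * ν) (Co79 (ν⁻¹ • m) Φ) = Co79 (ν⁻¹ • m) (Ao79 t n ψ μ a Φ) := by
  have hm' := hm.smul_inv hν
  have hΘ : IsSB (Mo79 t n ψ a (ftL t n ψ μ Φ)) := isSB_Mo79 t n hψ _ (hF.ft_sb Φ hΦ)
  have hB1 : ∀ ξ y : k × k, bfL t n (actL m ξ) (actL (ν⁻¹ • m) y) = bfL t n ξ y := by
    intro ξ y
    rw [actL_smul_left79, bfL_smul_right83, hm.bf, ← mul_assoc, inv_mul_cancel₀ hν, one_mul]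
  have hB2 : ∀ ξ y : k × k, bfL t n (actL (ν⁻¹ • m) ξ) (actL m y) = bfL t n ξ y := by
    intro ξ y
    rw [actL_smul_left79, bfL_smul_left83, hm.bf, ← mul_assoc, inv_mul_cancel₀ hν, one_mul]
  have hd' : (ν⁻¹ • m).det ≠ 0 := by rw [hm'.det]; exact inv_ne_zero hν
  have hd : m.det ≠ 0 := by rw [hm.det]; exact hν
  have es : ((‖(ν⁻¹ • m).det‖⁻¹ : ℝ) : ℂ) * ((‖m.det‖⁻¹ : ℝ) : ℂ) = 1 := by
    rw [hm'.det, hm.det, norm_inv, inv_inv, ← Complex.ofReal_mul,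
      mul_inv_cancel₀ (norm_ne_zero_iff.mpr hν), Complex.ofReal_one]
  unfold Ao79
  rw [ft_Co79 hψ hF.cov hd' hB1 hΦ, Mo_So79, ← Co_Mo79 hm, ft_So79,
    ft_Co79 hψ hF.cov hd hB2 hΘ, So_So79, So_congr79 es, So_one79]

/-- `U_{a ν} C_{m'} = ‖ν‖ C_{m'} U_a`, `m' = ν⁻¹ m`. -/
theorem Uo_Co79 (hψ : IsCharL ψ) (hF : FourierCert t n ψ μ c G)
    {m : Matrix (Fin 2) (Fin 2) k} {ν : k} (hm : IsSim79 t n m ν) (hν : ν ≠ 0) {a : k}
    (ha : a ≠ 0) {Φ : k × k → ℂ} (hΦ : IsSB Φ) :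
    Uo79 t n ψ μ (a * ν) (Co79 (ν⁻¹ • m) Φ)
      = So79 ((‖ν‖ : ℝ) : ℂ) (Co79 (ν⁻¹ • m) (Uo79 t n ψ μ a Φ)) := by
  have hm' := hm.smul_inv hν
  have hΞ : IsSB (Mo79 t n ψ (-a⁻¹) Φ) := isSB_Mo79 t n hψ _ hΦ
  have hB1 : ∀ ξ y : k × k, bfL t n (actL m ξ) (actL (ν⁻¹ • m) y) = bfL t n ξ y := by
    intro ξ y
    rw [actL_smul_left79, bfL_smul_right83, hm.bf, ← mul_assoc, inv_mul_cancel₀ hν, one_mul]
  have hd' : (ν⁻¹ • m).det ≠ 0 := by rw [hm'.det]; exact inv_ne_zero hν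
  have e1 : -(a * ν)⁻¹ = -a⁻¹ * ν⁻¹ := by
    field_simp
  have es : ((‖(ν⁻¹ • m).det‖⁻¹ : ℝ) : ℂ) = ((‖ν‖ : ℝ) : ℂ) := by
    rw [hm'.det, norm_inv, inv_inv]
  unfold Uo79
  rw [e1, ← Co_Mo79 hm' ψ (-a⁻¹) Φ, ft_Co79 hψ hF.cov hd' hB1 hΞ, Do_So79, Do_Co79,
    ← Do_Do79, ← Co_smul79, Mo_So79, ← Co_Mo79 hm', So_congr79 es]

/-- **`‖ν‖ G(a ν) = G(a)`** for the multiplier `ν ≠ 0` of a similitude. -/
theorem gaussSim79 (hψ : IsCharL ψ) (hF : FourierCert t n ψ μ c G)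
    (hne : ∃ Φ₀ : k × k → ℂ, IsSB Φ₀ ∧ ∃ ξ₀, Φ₀ ξ₀ ≠ 0)
    {m : Matrix (Fin 2) (Fin 2) k} {ν : k} (hm : IsSim79 t n m ν) (hν : ν ≠ 0) {a : k}
    (ha : a ≠ 0) : ((‖ν‖ : ℝ) : ℂ) * G (a * ν) = G a := by
  obtain ⟨Φ₀, hΦ₀, ξ₀, hξ₀⟩ := hne
  obtain ⟨Ψ, hΨ, hU⟩ := exists_Uo_ne_zero79 hψ hF ha hΦ₀ hξ₀
  have hm' := hm.smul_inv hν
  have hd' : (ν⁻¹ • m).det ≠ 0 := by rw [hm'.det]; exact inv_ne_zero hν
  have h1 := Ao_Co79 hψ hF hm hν a hΨ
  rw [Ao_eq79 hψ hF (mul_ne_zero ha hν) (isSB_Co79 hd' hΨ), Uo_Co79 hψ hF hm hν ha hΨ,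
    Ao_eq79 hψ hF ha hΨ, Co_So79, So_So79] at h1
  have h2 := congrFun h1 ((actH79 (ν⁻¹ • m) hd').symm ξ₀)
  rw [So_apply79, So_apply79, Co_apply79] at h2
  have h3 : actL (ν⁻¹ • m) ((actH79 (ν⁻¹ • m) hd').symm ξ₀) = ξ₀ :=
    (actH79 (ν⁻¹ • m) hd').apply_symm_apply ξ₀
  rw [h3] at h2
  have h4 := mul_right_cancel₀ hU h2
  rw [← h4]; ring

/-- **`‖Q(x, y)‖ G(a Q(x, y)) = G(a)`** (`LF54.GaussNormP`). -/
theorem gaussNorm79 (hψ : IsCharL ψ) (hF : FourierCert t n ψ μ c G)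
    (hne : ∃ Φ₀ : k × k → ℂ, IsSB Φ₀ ∧ ∃ ξ₀, Φ₀ ξ₀ ≠ 0) : GaussNormP t n G := by
  intro a ha x y hxy
  exact gaussSim79 hψ hF hne (isSim_torMat79 t n x y) hxy ha

end Sim

end Fermat.Agent.LT.A2.H79

end
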