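import Mathlib
import Fermat.Agent.LT.A2.H79.GaussNorm
import Fermat.Agent.LT.H11.LC

/-!
# Row LT, tower A2, leaf A2.03.1.1.06.08 `LF54.LeafGaussSum` -- helper79, registry 1585

OFF-MAIN.  `leafGaussSum_79 : LF54.LeafGaussSum`, VERBATIM against `LT/A2/H54/LocFinSpec.lean`
(helper54@26071c838, sha256 `8ccd9c5c…`).  Spares of the same calculus:
`leafGaussNorm_79 : LF54.LeafGaussNorm` (06), `leafGaussProd_79 : LF54.LeafGaussProd` (07).

## The route (TWO variables only: no Gauss identity on `k⁴`, no Fubini, no measure theory)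

Everything is operator calculus on the Schwartz--Bruhat functions of `k²` from the Fourier
certificate (`GaussOps.lean`, `GaussRel.lean`, `GaussNorm.lean`):

* (P) `‖h‖² G(h) G(-h) = c`                              (`gaussProd79`: `A_h A_{-h} = c²`);
* (W) `c G(a + b) = G(a) G(b) G(-(a + b)/(a b))`          (`gaussAdd79`, Weil's relation:
  `A_a D_{-1} A_b = c A_{a+b}` and `U_a D_{-1} U_b = G(f) U_{a+b}`);
* (N) `‖ν‖ G(a ν) = G(a)` for the multiplier `ν` of a similitude of `Q` (`gaussSim79`).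

For `s = N₁ + N₂ ≠ 0`, `N₁, N₂ ≠ 0` values of `Q`: (W) at `(a N₁, a N₂)` gives
`c G(a s) = G(a N₁) G(a N₂) G(f)`, `f = -(a s)/(a² N₁ N₂)`; (N) gives `‖Nᵢ‖ G(a Nᵢ) = G(a)` and
`‖a² N₁ N₂‖ G(-a s) = G(f)` (`a² N₁ N₂` is the multiplier of `a · m₁ m₂`); (P) at `a s` gives
`‖a s‖² G(a s) G(-a s) = c`.  Hence `c (‖s‖ G(a s))² = c G(a)²`.  If `N₁ = 0` or `N₂ = 0`, `s` is
a value of `Q` and (N) is enough.

The only input on `K_v`: there is a Schwartz--Bruhat function which is not zero (the indicator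
function of `𝒪_v²`; `𝒪_v` is compact and open, `LT/H11/LC.lean` of helper11, byte-identical copy).
-/

set_option autoImplicit false
set_option linter.unusedSectionVars false

open IsDedekindDomain NumberField MeasureTheory
open scoped Topology

noncomputable section

namespace Fermat.Agent.LT.A2.H79

open Fermat.Agent.LT.A2 Fermat.Agent.LT.A2.WX467 Fermat.Agent.LT.A2.LF54 Fermat.Agent.LT.A2.H83

/-! ## 1. Products of similitudes -/

section SimProd

variable {k : Type} [NormedField k]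

theorem IsSim79.mul {t n : k} {m₁ m₂ : Matrix (Fin 2) (Fin 2) k} {ν₁ ν₂ : k}
    (h₁ : IsSim79 t n m₁ ν₁) (h₂ : IsSim79 t n m₂ ν₂) : IsSim79 t n (m₁ * m₂) (ν₁ * ν₂) where
  q ξ := by rw [actL_mul79, h₁.q, h₂.q, mul_assoc]
  det := by rw [Matrix.det_mul, h₁.det, h₂.det]

theorem isSim_scalar79 (t n a : k) :
    IsSim79 t n (a • (1 : Matrix (Fin 2) (Fin 2) k)) (a ^ 2) where
  q ξ := by rw [actL_smul_left79, actL_one79, qfL_smul83]
  det := by rw [Matrix.det_smul, Matrix.det_one, Fintype.card_fin, mul_one]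

end SimProd

/-! ## 2. The abstract statement -/

section Abstract

variable {k : Type} [NormedField k] [IsUltrametricDist k]
variable {t n : k} {ψ : k → ℂ} {μ : @Measure k (borel k)} {c : ℝ} {G : k → ℂ}

/-- **`(‖s‖ G(a s))² = G(a)²`** for a nonzero sum `s` of two values of `Q`. -/
theorem gaussSum79 (hψ : IsCharL ψ) (hF : FourierCert t n ψ μ c G)
    (hne : ∃ Φ₀ : k × k → ℂ, IsSB Φ₀ ∧ ∃ ξ₀, Φ₀ ξ₀ ≠ 0) : GaussSumP t n G := by
  intro a ha x₁ y₁ x₂ y₂ hs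
  have hc : (c : ℂ) ≠ 0 := Complex.ofReal_ne_zero.mpr hF.c_pos.ne'
  by_cases h1 : qfL t n (x₁, y₁) = 0
  · rw [h1, zero_add] at hs ⊢
    rw [gaussNorm79 hψ hF hne a ha x₂ y₂ hs]
  by_cases h2 : qfL t n (x₂, y₂) = 0
  · rw [h2, add_zero] at hs ⊢
    rw [gaussNorm79 hψ hF hne a ha x₁ y₁ hs]
  set N₁ := qfL t n (x₁, y₁) with hN₁
  set N₂ := qfL t n (x₂, y₂) with hN₂
  have ha1 : a * N₁ ≠ 0 := mul_ne_zero ha h1
  have ha2 : a * N₂ ≠ 0 := mul_ne_zero ha h2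
  have has : a * N₁ + a * N₂ ≠ 0 := by
    rw [← mul_add]; exact mul_ne_zero ha hs
  have H1 : ((‖N₁‖ : ℝ) : ℂ) * G (a * N₁) = G a := gaussNorm79 hψ hF hne a ha x₁ y₁ h1
  have H2 : ((‖N₂‖ : ℝ) : ℂ) * G (a * N₂) = G a := gaussNorm79 hψ hF hne a ha x₂ y₂ h2
  have H3 := gaussAdd79 hψ hF hne ha1 ha2 has
  have hsim : IsSim79 t n ((a • (1 : Matrix (Fin 2) (Fin 2) k))
      * (torMat t n x₁ y₁ * torMat t n x₂ y₂)) (a ^ 2 * (N₁ * N₂)) :=
    (isSim_scalar79 t n a).mul ((isSim_torMat79 t n x₁ y₁).mul (isSim_torMat79 t n x₂ y₂))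
  have hν : a ^ 2 * (N₁ * N₂) ≠ 0 := mul_ne_zero (pow_ne_zero 2 ha) (mul_ne_zero h1 h2)
  have hf : -(a * N₁ + a * N₂) / (a * N₁ * (a * N₂)) ≠ 0 :=
    div_ne_zero (neg_ne_zero.mpr has) (mul_ne_zero ha1 ha2)
  have H4 := gaussSim79 hψ hF hne hsim hν hf
  have e4 : -(a * N₁ + a * N₂) / (a * N₁ * (a * N₂)) * (a ^ 2 * (N₁ * N₂))
      = -(a * (N₁ + N₂)) := by
    field_simp
  rw [e4] at H4
  have H5 := gaussProd79 hψ hF hne (mul_ne_zero ha hs)
  rw [← mul_add] at H3 H4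
  have n4 : ((‖a ^ 2 * (N₁ * N₂)‖ : ℝ) : ℂ)
      = ((‖a‖ : ℝ) : ℂ) ^ 2 * (((‖N₁‖ : ℝ) : ℂ) * ((‖N₂‖ : ℝ) : ℂ)) := by
    rw [norm_mul, norm_pow, norm_mul]
    push_cast
    ring
  have n5 : ((‖a * (N₁ + N₂)‖ ^ 2 : ℝ) : ℂ)
      = (((‖a‖ : ℝ) : ℂ) * ((‖N₁ + N₂‖ : ℝ) : ℂ)) ^ 2 := by
    rw [norm_mul]
    push_cast
    ring
  rw [n4] at H4
  rw [n5] at H5
  have e : (c : ℂ) * (((‖N₁ + N₂‖ : ℝ) : ℂ) * G (a * (N₁ + N₂))) ^ 2 = (c : ℂ) * G a ^ 2 := by
    calc (c : ℂ) * (((‖N₁ + N₂‖ : ℝ) : ℂ) * G (a * (N₁ + N₂))) ^ 2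
        = ((‖N₁ + N₂‖ : ℝ) : ℂ) ^ 2 * G (a * (N₁ + N₂)) * ((c : ℂ) * G (a * (N₁ + N₂))) := by
          ring
      _ = ((‖N₁ + N₂‖ : ℝ) : ℂ) ^ 2 * G (a * (N₁ + N₂))
            * (G (a * N₁) * G (a * N₂)
              * (((‖a‖ : ℝ) : ℂ) ^ 2 * (((‖N₁‖ : ℝ) : ℂ) * ((‖N₂‖ : ℝ) : ℂ))
                * G (-(a * (N₁ + N₂))))) := by
          rw [H3, H4]
      _ = (((‖N₁‖ : ℝ) : ℂ) * G (a * N₁)) * (((‖N₂‖ : ℝ) : ℂ) * G (a * N₂))
            * ((((‖a‖ : ℝ) : ℂ) * ((‖N₁ + N₂‖ : ℝ) : ℂ)) ^ 2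
              * (G (a * (N₁ + N₂)) * G (-(a * (N₁ + N₂))))) := by
          ring
      _ = G a * G a * (c : ℂ) := by rw [H1, H2, H5]
      _ = (c : ℂ) * G a ^ 2 := by ring
  exact mul_left_cancel₀ hc e

end Abstract

/-! ## 3. The leaves on `K_v` -/

section Leaves

variable (K : Type) [Field K] [NumberField K] (v : HeightOneSpectrum (𝓞 K))

/-- The indicator function of `𝒪_v²` is a Schwartz--Bruhat function which is not zero. -/
theorem exists_sb_ne_zero79 :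
    ∃ Φ₀ : v.adicCompletion K × v.adicCompletion K → ℂ, IsSB Φ₀ ∧ ∃ ξ₀, Φ₀ ξ₀ ≠ 0 := by
  have hO : IsOpen (v.adicCompletionIntegers K : Set (v.adicCompletion K)) :=
    Valued.isOpen_valuationSubring (v.adicCompletion K)
  have hC : IsCompact (v.adicCompletionIntegers K : Set (v.adicCompletion K)) :=
    Fermat.Agent.LT.H11.LC.isCompact_integers_h11 K v
  have hS : IsClopen ((v.adicCompletionIntegers K : Set (v.adicCompletion K)) ×ˢ
      (v.adicCompletionIntegers K : Set (v.adicCompletion K))) :=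
    ⟨(hC.prod hC).isClosed, hO.prod hO⟩
  refine ⟨Set.indicator ((v.adicCompletionIntegers K : Set (v.adicCompletion K)) ×ˢ
      (v.adicCompletionIntegers K : Set (v.adicCompletion K))) 1, ⟨?_, ?_⟩, (0, 0), ?_⟩
  · have h1 : IsLocallyConstant (⇑(LocallyConstant.charFn ℂ hS)) :=
      (LocallyConstant.charFn ℂ hS).isLocallyConstant
    rwa [LocallyConstant.coe_charFn] at h1
  · exact HasCompactSupport.of_support_subset_isCompact (hC.prod hC)
      Set.support_indicator_subset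
  · have hmem : ((0 : v.adicCompletion K), (0 : v.adicCompletion K))
        ∈ (v.adicCompletionIntegers K : Set (v.adicCompletion K)) ×ˢ
          (v.adicCompletionIntegers K : Set (v.adicCompletion K)) :=
      ⟨zero_mem _, zero_mem _⟩
    rw [Set.indicator_of_mem hmem]
    exact one_ne_zero

end Leaves

/-- **A2.03.1.1.06.08 `LeafGaussSum`** (registry 1585), VERBATIM. -/
theorem leafGaussSum_79 : LF54.LeafGaussSum := by
  intro K _ _ v t n ψ μ c G hctx hF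
  exact gaussSum79 hctx.char hF (exists_sb_ne_zero79 K v)

/-- **A2.03.1.1.06.06 `LeafGaussNorm`** (spare), VERBATIM. -/
theorem leafGaussNorm_79 : LF54.LeafGaussNorm := by
  intro K _ _ v t n ψ μ c G hctx hF
  exact gaussNorm79 hctx.char hF (exists_sb_ne_zero79 K v)

/-- **A2.03.1.1.06.07 `LeafGaussProd`** (spare), VERBATIM. -/
theorem leafGaussProd_79 : LF54.LeafGaussProd := by
  intro K _ _ v t n ψ μ c G hctx hF a ha
  exact gaussProd79 hctx.char hF (exists_sb_ne_zero79 K v) ha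

end Fermat.Agent.LT.A2.H79

end
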